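/-
P5 — block [KAPPA] (owner: helper72): the analytic Kummer map, PLAN file.

Vocabulary (all on top of S24 and `Lib/HolVal`):

* `Mer`            : the field of meromorphic functions on `ℍ` (fraction field of `HolVal.Hol`);
* `constMer`       : the constants `ℂ →+* Mer`;
* `compMer γ`      : `F ↦ F ∘ γ` on `Mer`, for `γ : SL(2,ℤ)` (a ring hom; `compMer (γ γ') =
                     compMer γ' ∘ compMer γ`);
* `Realisation K F Γ` : a function field `F / K` realised inside `Mer` by `Γ`-invariant
                     functions, the constants `K` going to constants (`K = Q̄` or `ℂ`);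
* `embMer N`, `realQ N` : the Prelude function field `F_N = FN N` of `X₀(N)` over `Q̄` inside
                     `Mer` (S24's `embFN` followed by `Frac (RN N) → Frac Hol`);
* `KummerRel R n x ψ` : the class `x ∈ Pic⁰(F / K)` is represented by a degree-zero divisor `D`
                     with `n • D = div f`, and `f` has an `n`-th root `G` in `Mer` with
                     `G ∘ γ = ψ γ · G` for all `γ ∈ Γ`.

Contracts of the two input blocks ([ROOT], [MODFUN]) are the `def … : Prop` below.
-/
import Mathlib
import Fermat.Prelude.Def_ModularCurve_ArithmeticGalois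
import Fermat.Agent.S24.Bridge
import Fermat.Agent.Lib.HolVal

set_option autoImplicit false

noncomputable section

namespace Fermat.Agent.P5.Kappa

open UpperHalfPlane AlgebraicCurve ModularCurve CongruenceSubgroup
open Fermat.Agent.S24 Fermat.Agent.Lib.HolVal
open scoped MatrixGroups Manifold

/-! ### The field `Mer(ℍ)` -/

/-- The field of meromorphic functions on the upper half plane. -/
abbrev Mer : Type := FractionRing Hol

/-- The constant functions, as a ring hom `ℂ →+* Hol`. -/
def constHol : ℂ →+* Hol where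
  toFun c := ⟨fun _ => c, mdifferentiable_const⟩
  map_one' := rfl
  map_mul' _ _ := rfl
  map_zero' := rfl
  map_add' _ _ := rfl

@[simp] theorem constHol_apply (c : ℂ) (τ : ℍ) : (constHol c : ℍ → ℂ) τ = c := rfl

/-- The constants of `Mer`. -/
def constMer : ℂ →+* Mer := (algebraMap Hol Mer).comp constHol

theorem constMer_apply (c : ℂ) : constMer c = algebraMap Hol Mer (constHol c) := rfl

theorem compHom_injective (γ : SL(2, ℤ)) : Function.Injective (compHom γ) := by
  intro f g h
  apply Subtype.ext
  funext z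
  have h1 := congrFun (congrArg Subtype.val h) (γ⁻¹ • z)
  simpa using h1

/-- Precomposition with `γ : SL(2,ℤ)` on `Mer`: `F ↦ F ∘ γ`. -/
def compMer (γ : SL(2, ℤ)) : Mer →+* Mer :=
  IsFractionRing.lift (K := Mer) (g := (algebraMap Hol Mer).comp (compHom γ))
    ((IsFractionRing.injective Hol Mer).comp (compHom_injective γ))

theorem compMer_algebraMap (γ : SL(2, ℤ)) (f : Hol) :
    compMer γ (algebraMap Hol Mer f) = algebraMap Hol Mer (compHom γ f) :=
  IsFractionRing.lift_algebraMap _ f

theorem compHom_constHol (γ : SL(2, ℤ)) (c : ℂ) : compHom γ (constHol c) = constHol c := rfl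

@[simp] theorem compMer_constMer (γ : SL(2, ℤ)) (c : ℂ) : compMer γ (constMer c) = constMer c := by
  rw [constMer_apply, compMer_algebraMap, compHom_constHol]

/-! ### Realisations of a function field inside `Mer(ℍ)` -/

/-- A realisation of a function field `F / K` by meromorphic functions on `ℍ` invariant under
`Γ ≤ SL(2,ℤ)`, the constants of `K` going to constant functions. -/
structure Realisation (K F : Type*) [Field K] [Field F] [Algebra K F]
    (Γ : Subgroup SL(2, ℤ)) where
  /-- the function on `ℍ` of an element of `F` -/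
  emb : F →+* Mer
  /-- the embedding of the constant field in `ℂ` -/
  iota : K →+* ℂ
  emb_algebraMap : ∀ c : K, emb (algebraMap K F c) = constMer (iota c)
  comp_emb : ∀ γ ∈ Γ, ∀ f : F, compMer γ (emb f) = emb f

section generic

variable {K F : Type*} [Field K] [Field F] [Algebra K F] {Γ : Subgroup SL(2, ℤ)}

/-- `(D, f, G, ψ)` is a Kummer datum of exponent `n`: `n • D = div f`, `G ^ n = f` in `Mer(ℍ)`,
and `G ∘ γ = ψ γ · G` for `γ ∈ Γ`. -/
structure IsKummerDatum (R : Realisation K F Γ) (n : ℕ) (D : Divisor K F) (f : F)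
    (G : Mer) (ψ : ↥Γ →* ℂˣ) : Prop where
  ne_zero : f ≠ 0
  div_eq : ∀ v : Place K F, (n : ℤ) * D v = v.ord f
  root : G ^ n = R.emb f
  char : ∀ γ : ↥Γ, compMer (γ : SL(2, ℤ)) G = constMer ((ψ γ : ℂˣ) : ℂ) * G

/-- **The Kummer relation.** `KummerRel R n x ψ`: the class `x` of `Pic⁰(F / K)` is killed by
`n` and its Kummer character `Γ → μ_n ⊆ ℂˣ` is `ψ`. -/
def KummerRel (R : Realisation K F Γ) (n : ℕ) (x : Pic0 K F) (ψ : ↥Γ →* ℂˣ) : Prop :=
  ∃ (D : Divisor.degZero (K := K) (F := F)) (f : F) (G : Mer),
    Pic0.mk D = x ∧ IsKummerDatum R n (D : Divisor K F) f G ψ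

/-- **[MODFUN] (MF4)(i)**, for a realisation: a `Γ`-invariant meromorphic function on `ℍ` with an
`n`-th power in `F` lies in `F`. -/
def ModFunStmt (R : Realisation K F Γ) : Prop :=
  ∀ n : ℕ, 0 < n → ∀ G : Mer, (∀ γ : ↥Γ, compMer (γ : SL(2, ℤ)) G = G) →
    (∃ f : F, G ^ n = R.emb f) → ∃ g : F, G = R.emb g

end generic

/-- **[ROOT]** (helper40): a nonzero holomorphic function on `ℍ` all of whose orders of vanishing
are divisible by `n` is an `n`-th power of a holomorphic function. -/
def RootStmt : Prop :=
  ∀ n : ℕ, 0 < n → ∀ u : Hol, u ≠ 0 → (∀ τ : ℍ, n ∣ ordNat τ (u : ℍ → ℂ)) →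
    ∃ G : Hol, G ^ n = u

/-! ### The modular function field `F_N` over `Q̄` inside `Mer(ℍ)` -/

/-- `RN N ⊆ Hol`. -/
def rnToHol (N : ℕ) [NeZero N] : RN N →+* Hol :=
  Subring.inclusion (fun f hf => IsHolStable.mdiff (R := RN N) f hf)

theorem rnToHol_injective (N : ℕ) [NeZero N] : Function.Injective (rnToHol N) :=
  Subring.inclusion_injective _

/-- `Frac (RN N) → Mer`. -/
def mnToMer (N : ℕ) [NeZero N] : FractionRing (RN N) →+* Mer :=
  IsFractionRing.lift (K := FractionRing (RN N)) (g := (algebraMap Hol Mer).comp (rnToHol N))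
    ((IsFractionRing.injective Hol Mer).comp (rnToHol_injective N))

theorem mnToMer_algebraMap (N : ℕ) [NeZero N] (f : RN N) :
    mnToMer N (algebraMap (RN N) (FractionRing (RN N)) f) = algebraMap Hol Mer (rnToHol N f) :=
  IsFractionRing.lift_algebraMap _ f

/-- The Prelude function field `F_N` of `X₀(N)` over `Q̄`, inside `Mer(ℍ)`: a series goes to the
meromorphic function on `ℍ` with that `q`-expansion. -/
def embMer (N : ℕ) [NeZero N] : FN N →+* Mer := (mnToMer N).comp (embFN N).toRingHom

theorem embMer_apply (N : ℕ) [NeZero N] (f : FN N) : embMer N f = mnToMer N (embFN N f) := rfl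

theorem compHom_rnToHol (N : ℕ) [NeZero N] (γ : SL(2, ℤ)) (f : RN N) :
    compHom γ (rnToHol N f) = rnToHol N (translate (RN N) γ f) := rfl

theorem compMer_mnToMer (N : ℕ) [NeZero N] (γ : SL(2, ℤ)) (m : FractionRing (RN N)) :
    compMer γ (mnToMer N m) = mnToMer N (rhoHol (RN N) γ⁻¹ m) := by
  obtain ⟨a, b, -, rfl⟩ := exists_fractionRing_eq_div (RN N) m
  rw [rhoHol_div, inv_inv, map_div₀, map_div₀, map_div₀, mnToMer_algebraMap, mnToMer_algebraMap,
    mnToMer_algebraMap, mnToMer_algebraMap, compMer_algebraMap, compMer_algebraMap,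
    compHom_rnToHol, compHom_rnToHol]

/-- The modular functions of level `N` are `Γ₀(N)`-invariant. -/
theorem compMer_embMer (N : ℕ) [NeZero N] {γ : SL(2, ℤ)} (hγ : γ ∈ Gamma0 N) (f : FN N) :
    compMer γ (embMer N f) = embMer N f := by
  rw [embMer_apply, compMer_mnToMer, (embFN_fixed_iff N γ⁻¹).mpr (inv_mem hγ) f]

/-- The constants of `F_N` are constants of `Mer`. -/
theorem embMer_algebraMap (N : ℕ) [NeZero N] (c : Kbar) :
    embMer N (algebraMap Kbar (FN N) c) = constMer (Basic.iota c) := by
  rw [embMer_apply, AlgHom.commutes, algebraMap_kbar_fractionRing, mnToMer_algebraMap]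
  rfl

/-- **The realisation of `F_N / Q̄`** (the Prelude function field of `X₀(N)`) on `ℍ`. -/
def realQ (N : ℕ) [NeZero N] : Realisation Kbar (FN N) (Gamma0 N) where
  emb := embMer N
  iota := Basic.iota
  emb_algebraMap := embMer_algebraMap N
  comp_emb := fun _ hγ f => compMer_embMer N hγ f

end Fermat.Agent.P5.Kappa
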