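/-
P5 — block [KAPPA] (helper72): basic lemmas on `Mer`, `constMer`, `compMer`, `embMer`.
-/
import Fermat.Agent.P5.Kappa.Plan

set_option autoImplicit false

noncomputable section

namespace Fermat.Agent.P5.Kappa

open UpperHalfPlane AlgebraicCurve ModularCurve CongruenceSubgroup
open Fermat.Agent.S24 Fermat.Agent.Lib.HolVal
open scoped MatrixGroups Manifold

/-! ### Constants -/

theorem constMer_injective : Function.Injective constMer := constMer.injective

theorem constMer_ne_zero {c : ℂ} (hc : c ≠ 0) : constMer c ≠ 0 :=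
  (map_ne_zero constMer).mpr hc

theorem algebraMap_Hol_injective : Function.Injective (algebraMap Hol Mer) :=
  IsFractionRing.injective Hol Mer

/-- Every element of `Mer` is a quotient of two holomorphic functions. -/
theorem exists_eq_div (F : Mer) :
    ∃ g h : Hol, h ≠ 0 ∧ F = algebraMap Hol Mer g / algebraMap Hol Mer h := by
  obtain ⟨g, h, hh, rfl⟩ := IsFractionRing.div_surjective (A := Hol) F
  exact ⟨g, h, nonZeroDivisors.ne_zero hh, rfl⟩

/-! ### Precomposition -/

theorem compHom_one (f : Hol) : compHom 1 f = f := by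
  apply Subtype.ext
  funext z
  simp

theorem compHom_mul (γ γ' : SL(2, ℤ)) (f : Hol) :
    compHom (γ * γ') f = compHom γ' (compHom γ f) := by
  apply Subtype.ext
  funext z
  simp [mul_smul]

theorem compMer_div (γ : SL(2, ℤ)) (g h : Hol) :
    compMer γ (algebraMap Hol Mer g / algebraMap Hol Mer h)
      = algebraMap Hol Mer (compHom γ g) / algebraMap Hol Mer (compHom γ h) := by
  rw [map_div₀, compMer_algebraMap, compMer_algebraMap]

@[simp] theorem compMer_one (F : Mer) : compMer 1 F = F := by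
  obtain ⟨g, h, -, rfl⟩ := exists_eq_div F
  rw [compMer_div, compHom_one, compHom_one]

theorem compMer_mul (γ γ' : SL(2, ℤ)) (F : Mer) :
    compMer (γ * γ') F = compMer γ' (compMer γ F) := by
  obtain ⟨g, h, -, rfl⟩ := exists_eq_div F
  rw [compMer_div, compMer_div, compMer_div, compHom_mul, compHom_mul]

theorem compMer_injective (γ : SL(2, ℤ)) : Function.Injective (compMer γ) :=
  (compMer γ).injective

theorem compMer_ne_zero (γ : SL(2, ℤ)) {F : Mer} (hF : F ≠ 0) : compMer γ F ≠ 0 :=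
  (map_ne_zero (compMer γ)).mpr hF

/-! ### Roots of unity and roots of constants in `Mer` -/

/-- An `n`-th root of unity in `Mer` is a constant. -/
theorem exists_const_of_pow_eq_one {n : ℕ} (hn : 0 < n) {z : Mer} (hz : z ^ n = 1) :
    ∃ c : ℂ, c ^ n = 1 ∧ z = constMer c := by
  have : NeZero n := ⟨hn.ne'⟩
  obtain ⟨ζ, hζ⟩ : ∃ ζ : ℂ, IsPrimitiveRoot ζ n := ⟨_, Complex.isPrimitiveRoot_exp n hn.ne'⟩
  have hζ' : IsPrimitiveRoot (constMer ζ) n := hζ.map_of_injective constMer_injective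
  obtain ⟨i, -, hi⟩ := hζ'.eq_pow_of_pow_eq_one hz
  refine ⟨ζ ^ i, ?_, ?_⟩
  · rw [← pow_mul, mul_comm, pow_mul, hζ.pow_eq_one, one_pow]
  · rw [map_pow, hi]

/-- An `n`-th root of a constant in `Mer` is a constant. -/
theorem exists_const_of_pow_eq_const {n : ℕ} (hn : 0 < n) {z : Mer} {c : ℂ}
    (hz : z ^ n = constMer c) : ∃ c' : ℂ, c' ^ n = c ∧ z = constMer c' := by
  by_cases hc : c = 0
  · refine ⟨0, by rw [hc, zero_pow hn.ne'], ?_⟩
    rw [hc, map_zero] at hz
    rw [map_zero]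
    exact pow_eq_zero_iff hn.ne' |>.mp hz
  obtain ⟨c₀, hc₀⟩ := IsAlgClosed.exists_pow_nat_eq c hn
  have hc₀0 : c₀ ≠ 0 := by
    rintro rfl
    rw [zero_pow hn.ne'] at hc₀
    exact hc hc₀.symm
  have h1 : (z / constMer c₀) ^ n = 1 := by
    rw [div_pow, hz, ← map_pow, hc₀]
    exact div_self (constMer_ne_zero hc)
  obtain ⟨c₁, hc₁, h2⟩ := exists_const_of_pow_eq_one hn h1
  refine ⟨c₁ * c₀, by rw [mul_pow, hc₁, hc₀, one_mul], ?_⟩
  rw [map_mul, ← h2, div_mul_cancel₀ _ (constMer_ne_zero hc₀0)]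

/-! ### The character of an eigenfunction -/

/-- A nonzero `F ∈ Mer` with `F ∘ γ ∈ ℂ · F` for all `γ ∈ Γ` has a character. -/
theorem exists_char (Γ : Subgroup SL(2, ℤ)) {F : Mer} (hF : F ≠ 0)
    (h : ∀ γ : ↥Γ, ∃ c : ℂ, compMer (γ : SL(2, ℤ)) F = constMer c * F) :
    ∃ ψ : ↥Γ →* ℂˣ,
      ∀ γ : ↥Γ, compMer (γ : SL(2, ℤ)) F = constMer ((ψ γ : ℂˣ) : ℂ) * F := by
  choose c hc using h
  have hc0 : ∀ γ, c γ ≠ 0 := by
    intro γ h0
    have h1 := hc γ
    rw [h0, map_zero, zero_mul] at h1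
    exact compMer_ne_zero _ hF h1
  have huniq : ∀ {a b : ℂ}, constMer a * F = constMer b * F → a = b := by
    intro a b hab
    exact constMer_injective (mul_right_cancel₀ hF hab)
  have hone : c 1 = 1 := by
    apply huniq
    rw [← hc 1, map_one, one_mul]
    exact compMer_one F
  have hmul : ∀ γ γ' : ↥Γ, c (γ * γ') = c γ * c γ' := by
    intro γ γ'
    apply huniq
    rw [← hc (γ * γ')]
    show compMer ((γ : SL(2, ℤ)) * (γ' : SL(2, ℤ))) F = _
    rw [compMer_mul, hc γ, map_mul, compMer_constMer, hc γ', map_mul]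
    ring
  refine ⟨{ toFun := fun γ => Units.mk0 (c γ) (hc0 γ)
            map_one' := Units.ext hone
            map_mul' := fun γ γ' => Units.ext (hmul γ γ') }, fun γ => ?_⟩
  exact hc γ

end Fermat.Agent.P5.Kappa
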