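/-
P5 — block [KAPPA] (helper72): (K1) existence of the Kummer character, from [ROOT].

For a realisation `R : Realisation K F Γ` and `f ∈ F` with `div f = n • D`, every analytic order
of `R.emb f` on `ℍ` is divisible by `n` (the point valuation at `τ` restricted to `F` is trivial
or a positive multiple of the `ord` of a place: S24 `exists_place_of_valuation`), hence `R.emb f`
has an `n`-th root `G` in `Mer` by `RootStmt`, and `G ∘ γ = ψ γ · G` on `Γ`.
-/
import Fermat.Agent.P5.Kappa.Basic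
import Fermat.Agent.S24.PlaceVal

set_option autoImplicit false

noncomputable section

namespace Fermat.Agent.P5.Kappa

open UpperHalfPlane AlgebraicCurve ModularCurve CongruenceSubgroup
open Fermat.Agent.S24 Fermat.Agent.Lib.HolVal
open scoped MatrixGroups Manifold WithZero

/-! ### The point valuations of `Mer` -/

/-- The order at `τ`, as a valuation of `Mer(ℍ)`. -/
def ordMer (τ : ℍ) : Valuation Mer ℤᵐ⁰ :=
  ordAtFrac (M := Mer) (RingHom.id Hol) Function.injective_id τ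

theorem ordMer_algebraMap (τ : ℍ) (f : Hol) : ordMer τ (algebraMap Hol Mer f) = ordAt τ f :=
  ordAtFrac_algebraMap _ _ τ f

theorem ordMer_constMer (τ : ℍ) {c : ℂ} (hc : c ≠ 0) : ordMer τ (constMer c) = 1 := by
  rw [constMer_apply, ordMer_algebraMap]
  exact ordAt_eq_one_of_ne_zero τ _ hc

/-- `-log (ordMer τ (g / h)) = ord_τ g - ord_τ h`. -/
theorem neg_log_ordMer_div (τ : ℍ) {g h : Hol} (hg : g ≠ 0) (hh : h ≠ 0) :
    -(WithZero.log (ordMer τ (algebraMap Hol Mer g / algebraMap Hol Mer h)))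
      = (ordNat τ (g : ℍ → ℂ) : ℤ) - (ordNat τ (h : ℍ → ℂ) : ℤ) := by
  rw [map_div₀, ordMer_algebraMap, ordMer_algebraMap,
    WithZero.log_div (ordAt_ne_zero τ hg) (ordAt_ne_zero τ hh), ← log_ordAt τ hg,
    ← log_ordAt τ hh]
  ring

/-- `ord_τ (g * h ^ m) = ord_τ g + m * ord_τ h`. -/
theorem ordNat_mul_pow (τ : ℍ) {g h : Hol} (hg : g ≠ 0) (hh : h ≠ 0) (m : ℕ) :
    (ordNat τ ((g * h ^ m : Hol) : ℍ → ℂ) : ℤ)
      = (ordNat τ (g : ℍ → ℂ) : ℤ) + m * (ordNat τ (h : ℍ → ℂ) : ℤ) := by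
  have hne : g * h ^ m ≠ 0 := mul_ne_zero hg (pow_ne_zero m hh)
  rw [← log_ordAt τ hne, map_mul, map_pow,
    WithZero.log_mul (ordAt_ne_zero τ hg) (pow_ne_zero m (ordAt_ne_zero τ hh)),
    WithZero.log_pow, ← log_ordAt τ hg, ← log_ordAt τ hh]
  simp only [nsmul_eq_mul]
  ring

section generic

variable {K F : Type*} [Field K] [Field F] [Algebra K F] {Γ : Subgroup SL(2, ℤ)}

theorem Realisation.emb_injective (R : Realisation K F Γ) : Function.Injective R.emb :=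
  R.emb.injective

theorem Realisation.emb_ne_zero (R : Realisation K F Γ) {f : F} (hf : f ≠ 0) : R.emb f ≠ 0 :=
  (map_ne_zero R.emb).mpr hf

/-- **Order divisibility.** If `div f = n • D` then every order of `R.emb f` on `ℍ` is divisible
by `n`. -/
theorem dvd_neg_log_ordMer (R : Realisation K F Γ) {n : ℕ} {D : Divisor K F} {f : F}
    (hf : f ≠ 0) (hdiv : ∀ v : Place K F, (n : ℤ) * D v = v.ord f) (τ : ℍ) :
    (n : ℤ) ∣ -(WithZero.log (ordMer τ (R.emb f))) := by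
  set w : Valuation F ℤᵐ⁰ := (ordMer τ).comap R.emb with hw
  have hwf : ∀ m : F, w m = ordMer τ (R.emb m) := fun m => rfl
  have hK : ∀ a : K, a ≠ 0 → w (algebraMap K F a) = 1 := by
    intro a ha
    rw [hwf, R.emb_algebraMap]
    exact ordMer_constMer τ ((map_ne_zero R.iota).mpr ha)
  by_cases hnt : ∃ m : F, m ≠ 0 ∧ w m ≠ 1
  · obtain ⟨W, -, e, -, he⟩ := exists_place_of_valuation (K := K) w hK hnt
    have h1 := he f hf
    rw [hwf] at h1
    rw [h1, ← hdiv W]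
    exact ⟨(e : ℤ) * D W, by ring⟩
  · push Not at hnt
    have h1 := hnt f hf
    rw [hwf] at h1
    rw [h1, WithZero.log_one, neg_zero]
    exact dvd_zero _

/-- **Existence of the root.** If `div f = n • D` then `R.emb f` is an `n`-th power in `Mer`. -/
theorem exists_root (hRoot : RootStmt) (R : Realisation K F Γ) {n : ℕ} (hn : 0 < n)
    {D : Divisor K F} {f : F} (hf : f ≠ 0)
    (hdiv : ∀ v : Place K F, (n : ℤ) * D v = v.ord f) : ∃ G : Mer, G ^ n = R.emb f := by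
  obtain ⟨g, h, hh, hgh⟩ := exists_eq_div (R.emb f)
  have hg : g ≠ 0 := by
    rintro rfl
    rw [map_zero, zero_div] at hgh
    exact R.emb_ne_zero hf hgh
  have hu : g * h ^ (n - 1) ≠ 0 := mul_ne_zero hg (pow_ne_zero _ hh)
  have hord : ∀ τ : ℍ, n ∣ ordNat τ ((g * h ^ (n - 1) : Hol) : ℍ → ℂ) := by
    intro τ
    have h1 := dvd_neg_log_ordMer R hf hdiv τ
    rw [hgh, neg_log_ordMer_div τ hg hh] at h1
    have h2 := ordNat_mul_pow τ hg hh (n - 1)
    have h3 : ((n - 1 : ℕ) : ℤ) = (n : ℤ) - 1 := by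
      rw [Nat.cast_sub hn, Nat.cast_one]
    rw [h3] at h2
    have h4 : (n : ℤ) ∣ (ordNat τ ((g * h ^ (n - 1) : Hol) : ℍ → ℂ) : ℤ) := by
      rw [h2]
      have h5 : (ordNat τ (g : ℍ → ℂ) : ℤ) + ((n : ℤ) - 1) * (ordNat τ (h : ℍ → ℂ) : ℤ)
          = ((ordNat τ (g : ℍ → ℂ) : ℤ) - (ordNat τ (h : ℍ → ℂ) : ℤ))
            + (n : ℤ) * (ordNat τ (h : ℍ → ℂ) : ℤ) := by ring
      rw [h5]
      exact dvd_add h1 (dvd_mul_right _ _)
    exact Int.natCast_dvd_natCast.mp h4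
  obtain ⟨G₀, hG₀⟩ := hRoot n hn (g * h ^ (n - 1)) hu hord
  have hh' : algebraMap Hol Mer h ≠ 0 :=
    (map_ne_zero_iff _ algebraMap_Hol_injective).mpr hh
  refine ⟨algebraMap Hol Mer G₀ / algebraMap Hol Mer h, ?_⟩
  rw [div_pow, ← map_pow, hG₀, map_mul, map_pow, hgh]
  have h6 : algebraMap Hol Mer h ^ n = algebraMap Hol Mer h ^ (n - 1) * algebraMap Hol Mer h := by
    rw [← pow_succ, Nat.sub_add_cancel hn]
  rw [h6]
  field_simp

/-- A class killed by `n` is represented by a divisor `D` with `n • D` principal. -/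
theorem exists_div_eq_of_nsmul_eq_zero {n : ℕ} (D : Divisor.degZero (K := K) (F := F))
    (hx : n • (Pic0.mk D : Pic0 K F) = 0) :
    ∃ f : F, f ≠ 0 ∧ ∀ v : Place K F, (n : ℤ) * (D : Divisor K F) v = v.ord f := by
  have h1 : (Pic0.mk (n • D) : Pic0 K F) = 0 := hx
  have h2 : n • D ∈ (Divisor.principal (K := K) (F := F)).addSubgroupOf
      (Divisor.degZero (K := K) (F := F)) := (QuotientAddGroup.eq_zero_iff _).mp h1
  rw [AddSubgroup.mem_addSubgroupOf] at h2
  obtain ⟨f, hf, hD⟩ := h2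
  refine ⟨f, hf, fun v => ?_⟩
  rw [← hD v]
  simp

/-- The character of a root of a `Γ`-invariant function. -/
theorem exists_char_of_root (R : Realisation K F Γ) {n : ℕ} (hn : 0 < n) {f : F} (hf : f ≠ 0)
    {G : Mer} (hG : G ^ n = R.emb f) :
    ∃ ψ : ↥Γ →* ℂˣ, ∀ γ : ↥Γ, compMer (γ : SL(2, ℤ)) G = constMer ((ψ γ : ℂˣ) : ℂ) * G := by
  have hG0 : G ≠ 0 := by
    rintro rfl
    rw [zero_pow hn.ne'] at hG
    exact R.emb_ne_zero hf hG.symm
  refine exists_char Γ hG0 fun γ => ?_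
  have h1 : (compMer (γ : SL(2, ℤ)) G / G) ^ n = 1 := by
    rw [div_pow, ← map_pow, hG, R.comp_emb _ γ.2]
    exact div_self (R.emb_ne_zero hf)
  obtain ⟨c, -, hc⟩ := exists_const_of_pow_eq_one hn h1
  exact ⟨c, by rw [← hc, div_mul_cancel₀ _ hG0]⟩

/-- **(K1)** Every class killed by `n` has a Kummer character. -/
theorem exists_kummerRel (hRoot : RootStmt) (R : Realisation K F Γ) {n : ℕ} (hn : 0 < n)
    (x : Pic0 K F) (hx : n • x = 0) : ∃ ψ : ↥Γ →* ℂˣ, KummerRel R n x ψ := by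
  obtain ⟨D, rfl⟩ := Pic0.mk_surjective x
  obtain ⟨f, hf, hdiv⟩ := exists_div_eq_of_nsmul_eq_zero D hx
  obtain ⟨G, hG⟩ := exists_root hRoot R hn hf hdiv
  obtain ⟨ψ, hψ⟩ := exists_char_of_root R hn hf hG
  exact ⟨ψ, D, f, G, rfl, ⟨hf, hdiv, hG, hψ⟩⟩

end generic

end Fermat.Agent.P5.Kappa
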