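/-
P5 — block [KAPPA] (helper72): (K2) uniqueness of the Kummer character, (K3) additivity,
(K4) change of exponent, (K6) `ψ ^ n = 1` and `n • x = 0`.
-/
import Fermat.Agent.P5.Kappa.Exists
import Fermat.Agent.S24.Assembly

set_option autoImplicit false

noncomputable section

namespace Fermat.Agent.P5.Kappa

open UpperHalfPlane AlgebraicCurve ModularCurve CongruenceSubgroup
open Fermat.Agent.S24 Fermat.Agent.Lib.HolVal
open scoped MatrixGroups Manifold

section generic

variable {K F : Type*} [Field K] [Field F] [Algebra K F] {Γ : Subgroup SL(2, ℤ)}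

/-! ### Functions without zeros and poles -/

/-- Over an algebraically closed constant field, a function without zeros and poles is a
constant. -/
theorem exists_const_of_ord_eq_zero [IsAlgClosed K] [CharZero K] [IsFF1 K F] {f : F}
    (h : ∀ v : Place K F, v.ord f = 0) : ∃ a : K, f = algebraMap K F a := by
  rcases Assembly.const_or_transcendental (K := K) f with ha | ht
  · exact ha
  · exfalso
    have h1 := Assembly.sum_ord_zerosOf' ht
    have h2 : ∑ᶠ w ∈ zerosOf K f, w.ord f = 0 :=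
      finsum_mem_eq_zero_of_forall_eq_zero fun w _ => h w
    rw [h2] at h1
    have := Assembly.finiteDimensional_of_isFF1 ht
    have h3 : 0 < Module.finrank (IntermediateField.adjoin K {f}) F := Module.finrank_pos
    have h4 : (0 : ℤ) < (Module.finrank (IntermediateField.adjoin K {f}) F : ℤ) := by
      exact_mod_cast h3
    omega

/-! ### Elementary operations on Kummer data -/

theorem IsKummerDatum.root_ne_zero {R : Realisation K F Γ} {n : ℕ} {D : Divisor K F} {f : F}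
    {G : Mer} {ψ : ↥Γ →* ℂˣ} (h : IsKummerDatum R n D f G ψ) : G ^ n ≠ 0 := by
  rw [h.root]
  exact R.emb_ne_zero h.ne_zero

theorem IsKummerDatum.G_ne_zero {R : Realisation K F Γ} {n : ℕ} (hn : 0 < n) {D : Divisor K F}
    {f : F} {G : Mer} {ψ : ↥Γ →* ℂˣ} (h : IsKummerDatum R n D f G ψ) : G ≠ 0 := by
  rintro rfl
  exact h.root_ne_zero (zero_pow hn.ne')

/-- The character of a Kummer datum is unique. -/
theorem IsKummerDatum.char_unique {R : Realisation K F Γ} {n : ℕ} (hn : 0 < n)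
    {D : Divisor K F} {f : F} {G : Mer} {ψ ψ' : ↥Γ →* ℂˣ} (h : IsKummerDatum R n D f G ψ)
    (h' : ∀ γ : ↥Γ, compMer (γ : SL(2, ℤ)) G = constMer ((ψ' γ : ℂˣ) : ℂ) * G) : ψ = ψ' := by
  refine MonoidHom.ext fun γ => Units.ext ?_
  have h1 := (h.char γ).symm.trans (h' γ)
  exact constMer_injective (mul_right_cancel₀ (h.G_ne_zero hn) h1)

theorem isKummerDatum_zero (R : Realisation K F Γ) (n : ℕ) :
    IsKummerDatum R n (0 : Divisor K F) 1 1 1 where
  ne_zero := one_ne_zero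
  div_eq v := by simp
  root := by simp
  char γ := by simp

theorem IsKummerDatum.add {R : Realisation K F Γ} {n : ℕ} {D D' : Divisor K F} {f f' : F}
    {G G' : Mer} {ψ ψ' : ↥Γ →* ℂˣ} (h : IsKummerDatum R n D f G ψ)
    (h' : IsKummerDatum R n D' f' G' ψ') :
    IsKummerDatum R n (D + D') (f * f') (G * G') (ψ * ψ') where
  ne_zero := mul_ne_zero h.ne_zero h'.ne_zero
  div_eq v := by
    rw [Finsupp.add_apply, mul_add, h.div_eq, h'.div_eq, v.ord_mul h.ne_zero h'.ne_zero]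
  root := by rw [mul_pow, h.root, h'.root, map_mul]
  char γ := by
    rw [map_mul, h.char, h'.char, MonoidHom.mul_apply, Units.val_mul, map_mul]
    ring

theorem IsKummerDatum.neg {R : Realisation K F Γ} {n : ℕ} {D : Divisor K F} {f : F}
    {G : Mer} {ψ : ↥Γ →* ℂˣ} (h : IsKummerDatum R n D f G ψ) :
    IsKummerDatum R n (-D) f⁻¹ G⁻¹ ψ⁻¹ where
  ne_zero := inv_ne_zero h.ne_zero
  div_eq v := by
    rw [Finsupp.neg_apply, mul_neg, h.div_eq, v.ord_inv]
  root := by rw [inv_pow, h.root, map_inv₀]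
  char γ := by
    rw [map_inv₀, h.char, MonoidHom.inv_apply, Units.val_inv_eq_inv_val, map_inv₀, mul_inv]

theorem IsKummerDatum.of_mul {R : Realisation K F Γ} {n m : ℕ} {D : Divisor K F} {f : F}
    {G : Mer} {ψ : ↥Γ →* ℂˣ} (h : IsKummerDatum R (n * m) D f G ψ) :
    IsKummerDatum R n (m • D) f (G ^ m) (ψ ^ m) where
  ne_zero := h.ne_zero
  div_eq v := by
    rw [← h.div_eq v, Finsupp.smul_apply]
    push_cast
    simp only [nsmul_eq_mul]
    ring
  root := by rw [← pow_mul, mul_comm, h.root]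
  char γ := by
    rw [map_pow, h.char, MonoidHom.pow_apply, Units.val_pow_eq_pow_val, map_pow, mul_pow]

/-- **(K6a)** the Kummer character has exponent `n`. -/
theorem IsKummerDatum.pow_eq_one {R : Realisation K F Γ} {n : ℕ} {D : Divisor K F} {f : F}
    {G : Mer} {ψ : ↥Γ →* ℂˣ} (h : IsKummerDatum R n D f G ψ) : ψ ^ n = 1 := by
  refine MonoidHom.ext fun γ => Units.ext ?_
  rw [MonoidHom.pow_apply, Units.val_pow_eq_pow_val, MonoidHom.one_apply, Units.val_one]
  have h1 : compMer (γ : SL(2, ℤ)) (G ^ n) = G ^ n := by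
    rw [h.root, R.comp_emb _ γ.2]
  rw [map_pow, h.char, mul_pow, ← map_pow] at h1
  have h2 : constMer (((ψ γ : ℂˣ) : ℂ) ^ n) * G ^ n = constMer 1 * G ^ n := by
    rw [h1, map_one, one_mul]
  exact constMer_injective (mul_right_cancel₀ h.root_ne_zero h2)

/-! ### The relation -/

theorem KummerRel.zero (R : Realisation K F Γ) (n : ℕ) : KummerRel R n (0 : Pic0 K F) 1 :=
  ⟨0, 1, 1, rfl, isKummerDatum_zero R n⟩

/-- **(K3)** additivity. -/
theorem KummerRel.add {R : Realisation K F Γ} {n : ℕ} {x y : Pic0 K F} {ψ ψ' : ↥Γ →* ℂˣ}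
    (h : KummerRel R n x ψ) (h' : KummerRel R n y ψ') : KummerRel R n (x + y) (ψ * ψ') := by
  obtain ⟨D, f, G, rfl, hk⟩ := h
  obtain ⟨D', f', G', rfl, hk'⟩ := h'
  exact ⟨D + D', f * f', G * G', rfl, hk.add hk'⟩

theorem KummerRel.neg {R : Realisation K F Γ} {n : ℕ} {x : Pic0 K F} {ψ : ↥Γ →* ℂˣ}
    (h : KummerRel R n x ψ) : KummerRel R n (-x) ψ⁻¹ := by
  obtain ⟨D, f, G, rfl, hk⟩ := h
  exact ⟨-D, f⁻¹, G⁻¹, rfl, hk.neg⟩

theorem KummerRel.sub {R : Realisation K F Γ} {n : ℕ} {x y : Pic0 K F} {ψ ψ' : ↥Γ →* ℂˣ}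
    (h : KummerRel R n x ψ) (h' : KummerRel R n y ψ') : KummerRel R n (x - y) (ψ * ψ'⁻¹) := by
  rw [sub_eq_add_neg]
  exact h.add h'.neg

/-- **(K4)** change of exponent: `κ_n (m • x) = κ_{nm}(x) ^ m`. -/
theorem KummerRel.of_mul {R : Realisation K F Γ} {n m : ℕ} {x : Pic0 K F} {ψ : ↥Γ →* ℂˣ}
    (h : KummerRel R (n * m) x ψ) : KummerRel R n (m • x) (ψ ^ m) := by
  obtain ⟨D, f, G, rfl, hk⟩ := h
  exact ⟨m • D, f, G ^ m, rfl, hk.of_mul⟩

/-- **(K6a)** the Kummer character has exponent `n`. -/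
theorem KummerRel.pow_eq_one {R : Realisation K F Γ} {n : ℕ} {x : Pic0 K F} {ψ : ↥Γ →* ℂˣ}
    (h : KummerRel R n x ψ) : ψ ^ n = 1 := by
  obtain ⟨D, f, G, rfl, hk⟩ := h
  exact hk.pow_eq_one

/-- **(K6b)** a class with a Kummer character of exponent `n` is killed by `n`. -/
theorem KummerRel.nsmul_eq_zero {R : Realisation K F Γ} {n : ℕ} {x : Pic0 K F} {ψ : ↥Γ →* ℂˣ}
    (h : KummerRel R n x ψ) : n • x = 0 := by
  obtain ⟨D, f, G, rfl, hk⟩ := h
  show (Pic0.mk (n • D) : Pic0 K F) = 0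
  refine (QuotientAddGroup.eq_zero_iff _).mpr ?_
  rw [AddSubgroup.mem_addSubgroupOf]
  refine ⟨f, hk.ne_zero, fun v => ?_⟩
  rw [← hk.div_eq v]
  simp

/-- Two Kummer data whose divisors differ by a principal divisor have the same character. -/
theorem IsKummerDatum.char_eq [IsAlgClosed K] [CharZero K] [IsFF1 K F]
    {R : Realisation K F Γ} {n : ℕ} (hn : 0 < n) {D D' : Divisor K F} {f f' : F} {G G' : Mer}
    {ψ ψ' : ↥Γ →* ℂˣ} (h : IsKummerDatum R n D f G ψ) (h' : IsKummerDatum R n D' f' G' ψ')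
    (hDD' : D - D' ∈ Divisor.principal (K := K) (F := F)) : ψ = ψ' := by
  obtain ⟨g, hg, hgD⟩ := hDD'
  have hgn : g ^ n ≠ 0 := pow_ne_zero n hg
  -- `f = a * (f' * g ^ n)` with a constant `a`
  have hord : ∀ v : Place K F, v.ord (f * (f' * g ^ n)⁻¹) = 0 := by
    intro v
    rw [v.ord_mul h.ne_zero (inv_ne_zero (mul_ne_zero h'.ne_zero hgn)), v.ord_inv,
      v.ord_mul h'.ne_zero hgn, ord_pow, ← h.div_eq, ← h'.div_eq, ← hgD v, Finsupp.sub_apply]
    ring
  obtain ⟨a, ha⟩ := exists_const_of_ord_eq_zero hord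
  have hf : f = algebraMap K F a * (f' * g ^ n) := by
    rw [← ha, inv_mul_cancel_right₀ (mul_ne_zero h'.ne_zero hgn)]
  have hG'0 : G' ≠ 0 := h'.G_ne_zero hn
  have hg0 : R.emb g ≠ 0 := R.emb_ne_zero hg
  have h1 : (G / (G' * R.emb g)) ^ n = constMer (R.iota a) := by
    rw [div_pow, mul_pow, h.root, h'.root, hf, map_mul, map_mul, map_pow, R.emb_algebraMap]
    have h2 : R.emb f' * R.emb g ^ n ≠ 0 :=
      mul_ne_zero (R.emb_ne_zero h'.ne_zero) (pow_ne_zero n hg0)
    rw [mul_div_assoc, div_self h2, mul_one]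
  obtain ⟨c, -, hc⟩ := exists_const_of_pow_eq_const hn h1
  have hG : G = constMer c * (G' * R.emb g) := by
    rw [← hc, div_mul_cancel₀ _ (mul_ne_zero hG'0 hg0)]
  refine h.char_unique hn fun γ => ?_
  rw [hG, map_mul, map_mul, compMer_constMer, h'.char, R.comp_emb _ γ.2]
  ring

/-- **(K2)** uniqueness of the Kummer character. -/
theorem KummerRel.unique [IsAlgClosed K] [CharZero K] [IsFF1 K F] {R : Realisation K F Γ}
    {n : ℕ} (hn : 0 < n) {x : Pic0 K F} {ψ ψ' : ↥Γ →* ℂˣ} (h : KummerRel R n x ψ)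
    (h' : KummerRel R n x ψ') : ψ = ψ' := by
  obtain ⟨D, f, G, hD, hk⟩ := h
  obtain ⟨D', f', G', hD', hk'⟩ := h'
  have h1 : (Pic0.mk D : Pic0 K F) = Pic0.mk D' := hD.trans hD'.symm
  have h2 : D - D' ∈ (Divisor.principal (K := K) (F := F)).addSubgroupOf
      (Divisor.degZero (K := K) (F := F)) := QuotientAddGroup.eq_iff_sub_mem.mp h1
  rw [AddSubgroup.mem_addSubgroupOf] at h2
  exact hk.char_eq hn hk' h2

end generic

end Fermat.Agent.P5.Kappa
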