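/-
P5 — block [KAPPA] (helper72): (K5) injectivity of the Kummer map from [MODFUN], and
(K7) finiteness of the `n`-torsion of `Pic⁰` when `Γ` is finitely generated.
-/
import Fermat.Agent.P5.Kappa.Unique

set_option autoImplicit false

noncomputable section

namespace Fermat.Agent.P5.Kappa

open UpperHalfPlane AlgebraicCurve ModularCurve CongruenceSubgroup
open Fermat.Agent.S24 Fermat.Agent.Lib.HolVal
open scoped MatrixGroups Manifold

section generic

variable {K F : Type*} [Field K] [Field F] [Algebra K F] {Γ : Subgroup SL(2, ℤ)}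

/-- **(K5)** A class with trivial Kummer character is zero. -/
theorem KummerRel.eq_zero {R : Realisation K F Γ} (hM : ModFunStmt R) {n : ℕ} (hn : 0 < n)
    {x : Pic0 K F} (h : KummerRel R n x 1) : x = 0 := by
  obtain ⟨D, f, G, rfl, hk⟩ := h
  have hinv : ∀ γ : ↥Γ, compMer (γ : SL(2, ℤ)) G = G := fun γ => by
    rw [hk.char γ]
    simp
  obtain ⟨g, hg⟩ := hM n hn G hinv ⟨f, hk.root⟩
  have hgf : g ^ n = f := R.emb_injective (by rw [map_pow, ← hg, hk.root])
  have hg0 : g ≠ 0 := by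
    rintro rfl
    rw [zero_pow hn.ne'] at hgf
    exact hk.ne_zero hgf.symm
  refine (QuotientAddGroup.eq_zero_iff _).mpr ?_
  rw [AddSubgroup.mem_addSubgroupOf]
  refine ⟨g, hg0, fun v => ?_⟩
  have h1 := hk.div_eq v
  rw [← hgf, ord_pow] at h1
  have hn' : (n : ℤ) ≠ 0 := by exact_mod_cast hn.ne'
  exact mul_left_cancel₀ hn' h1

/-- Two classes with the same Kummer character are equal. -/
theorem KummerRel.eq_of_char_eq {R : Realisation K F Γ} (hM : ModFunStmt R) {n : ℕ}
    (hn : 0 < n) {x y : Pic0 K F} {ψ : ↥Γ →* ℂˣ} (h : KummerRel R n x ψ)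
    (h' : KummerRel R n y ψ) : x = y := by
  have h1 := h.sub h'
  have h2 : ψ * ψ⁻¹ = 1 := MonoidHom.ext fun γ => by simp
  rw [h2] at h1
  exact sub_eq_zero.mp (h1.eq_zero hM hn)

/-- The characters of exponent `n` of a finitely generated group are finite in number. -/
theorem finite_char_of_fg (hΓ : Group.FG ↥Γ) {n : ℕ} (hn : 0 < n) :
    Finite {ψ : ↥Γ →* ℂˣ // ψ ^ n = 1} := by
  obtain ⟨S, hS, hSfin⟩ := Group.fg_iff.mp hΓ
  have : NeZero n := ⟨hn.ne'⟩
  have : Finite S := hSfin.to_subtype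
  let Φ : {ψ : ↥Γ →* ℂˣ // ψ ^ n = 1} → (S → rootsOfUnity n ℂ) := fun ψ s =>
    ⟨ψ.1 s, by
      rw [mem_rootsOfUnity]
      have := congrArg (fun χ : ↥Γ →* ℂˣ => χ s) ψ.2
      simpa using this⟩
  refine Finite.of_injective Φ fun ψ ψ' hΦ => Subtype.ext ?_
  refine MonoidHom.eq_of_eqOn_dense hS fun s hs => ?_
  have h1 := congrFun hΦ ⟨s, hs⟩
  exact congrArg Subtype.val h1

/-- **(K7)** If `Γ` is finitely generated, the `n`-torsion of `Pic⁰(F / K)` is finite. -/
theorem finite_torsion (hRoot : RootStmt) {R : Realisation K F Γ} (hM : ModFunStmt R)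
    (hΓ : Group.FG ↥Γ) {n : ℕ} (hn : 0 < n) : Finite ↥(Pic0.torsion K F n) := by
  have hx : ∀ x : ↥(Pic0.torsion K F n), n • (x : Pic0 K F) = 0 := by
    intro x
    have h1 := Pic0.mem_torsion.mp x.2
    rwa [natCast_zsmul] at h1
  choose c hc using fun x : ↥(Pic0.torsion K F n) =>
    exists_kummerRel hRoot R hn (x : Pic0 K F) (hx x)
  have := finite_char_of_fg hΓ hn
  let Φ : ↥(Pic0.torsion K F n) → {ψ : ↥Γ →* ℂˣ // ψ ^ n = 1} := fun x =>
    ⟨c x, (hc x).pow_eq_one⟩
  refine Finite.of_injective Φ fun x y hΦ => Subtype.ext ?_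
  have h1 : c x = c y := congrArg Subtype.val hΦ
  have h2 := hc y
  rw [← h1] at h2
  exact (hc x).eq_of_char_eq hM hn h2

end generic

end Fermat.Agent.P5.Kappa
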