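/-
P5 — block [KAPPA] (helper72): `RootStmt` is a theorem (helper40's `Lib/HolRootMer`), hence the
unconditional forms of (K1) and (K7), and the case of the Prelude function field `F_N / Q̄`.
-/
import Fermat.Agent.P5.Kappa.Inj
import Fermat.Agent.Lib.HolRootMer
import Fermat.Agent.Lib.Gamma0FG
import Fermat.Agent.S37.HeckeInputs

set_option autoImplicit false

noncomputable section

namespace Fermat.Agent.P5.Kappa

open UpperHalfPlane AlgebraicCurve ModularCurve CongruenceSubgroup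
open Fermat.Agent.S24 Fermat.Agent.Lib.HolVal
open scoped MatrixGroups Manifold

/-- **[ROOT]** holds (helper40, `Lib/HolRootMer.exists_hol_root`). -/
theorem rootStmt : RootStmt := fun n hn u _ h =>
  Fermat.Agent.Lib.HolRoot.exists_hol_root n hn.ne' u h

section generic

variable {K F : Type*} [Field K] [Field F] [Algebra K F] {Γ : Subgroup SL(2, ℤ)}

/-- **(K1)**, unconditional: every class killed by `n` has a Kummer character. -/
theorem exists_kummerRel' (R : Realisation K F Γ) {n : ℕ} (hn : 0 < n) (x : Pic0 K F)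
    (hx : n • x = 0) : ∃ ψ : ↥Γ →* ℂˣ, KummerRel R n x ψ :=
  exists_kummerRel rootStmt R hn x hx

/-- **(K1)** in `∃!` form. -/
theorem existsUnique_kummerRel [IsAlgClosed K] [CharZero K] [IsFF1 K F] (R : Realisation K F Γ)
    {n : ℕ} (hn : 0 < n) (x : Pic0 K F) (hx : n • x = 0) :
    ∃! ψ : ↥Γ →* ℂˣ, KummerRel R n x ψ := by
  obtain ⟨ψ, hψ⟩ := exists_kummerRel' R hn x hx
  exact ⟨ψ, hψ, fun ψ' hψ' => hψ'.unique hn hψ⟩

/-- **(K7)**, modulo [MODFUN] only: if `Γ` is finitely generated, the `n`-torsion of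
`Pic⁰(F / K)` is finite. -/
theorem finite_torsion' {R : Realisation K F Γ} (hM : ModFunStmt R) (hΓ : Group.FG ↥Γ) {n : ℕ}
    (hn : 0 < n) : Finite ↥(Pic0.torsion K F n) :=
  finite_torsion rootStmt hM hΓ hn

/-- **(K7)** for a realisation on `Γ₀(N)`. -/
theorem finite_torsion_gamma0 {N : ℕ} [NeZero N] {R : Realisation K F (Gamma0 N)}
    (hM : ModFunStmt R) {n : ℕ} (hn : 0 < n) : Finite ↥(Pic0.torsion K F n) :=
  finite_torsion' hM (Fermat.Agent.Lib.Gamma0FG.gamma0_fg N) hn

end generic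

/-! ### The Prelude Jacobian `J₀(N) = Pic⁰(F_N / Q̄)` -/

/-- Every `n`-torsion point of `J₀(N)` has a unique Kummer character. -/
theorem existsUnique_kummerRel_realQ (N : ℕ) [NeZero N] {n : ℕ} (hn : 0 < n) (x : JZero N)
    (hx : n • x = 0) : ∃! ψ : ↥(Gamma0 N) →* ℂˣ, KummerRel (realQ N) n x ψ := by
  have : IsFF1 Kbar (FN N) := Fermat.Agent.S37.HeckeInputs.isFF1_FN N
  exact existsUnique_kummerRel (realQ N) hn x hx

/-- Uniqueness of the Kummer character on `J₀(N)`. -/
theorem KummerRel.unique_realQ {N : ℕ} [NeZero N] {n : ℕ} (hn : 0 < n) {x : JZero N}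
    {ψ ψ' : ↥(Gamma0 N) →* ℂˣ} (h : KummerRel (realQ N) n x ψ)
    (h' : KummerRel (realQ N) n x ψ') : ψ = ψ' := by
  have : IsFF1 Kbar (FN N) := Fermat.Agent.S37.HeckeInputs.isFF1_FN N
  exact h.unique hn h'

/-- The `n`-torsion of `J₀(N)` is finite (modulo [MODFUN] over `Q̄`). -/
theorem finite_torsion_realQ (N : ℕ) [NeZero N] (hM : ModFunStmt (realQ N)) {n : ℕ}
    (hn : 0 < n) : Finite ↥(Pic0.torsion Kbar (FN N) n) :=
  finite_torsion_gamma0 hM hn

end Fermat.Agent.P5.Kappa
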