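/-
P5 — block [KAPPA] (helper72): the top-level contract `Plan.FinTorsion N p` ([FIN]) from
[MODFUN] over `Q̄`.
-/
import Fermat.Agent.P5.Kappa.Root
import Fermat.Agent.P5.Plan

set_option autoImplicit false

namespace Fermat.Agent.P5.Kappa

open UpperHalfPlane AlgebraicCurve ModularCurve CongruenceSubgroup
open Fermat.Agent.S24
open scoped MatrixGroups

/-- The set of points of `J₀(N)` killed by `n` is finite (modulo [MODFUN] over `Q̄`). -/
theorem finite_setOf_nsmul_eq_zero (N : ℕ) [NeZero N] (hM : ModFunStmt (realQ N)) {n : ℕ}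
    (hn : 0 < n) : {x : JZero N | n • x = 0}.Finite := by
  have h1 : Finite ↥(Pic0.torsion Kbar (FN N) n) := finite_torsion_realQ N hM hn
  have h2 : {x : JZero N | n • x = 0} = (Pic0.torsion Kbar (FN N) n : Set (Pic0 Kbar (FN N))) := by
    ext x
    rw [Set.mem_ofPred_eq, SetLike.mem_coe, Pic0.mem_torsion, natCast_zsmul]
  rw [h2]
  exact Set.toFinite _

/-- **[FIN]** `Plan.FinTorsion N p` from `ModFunStmt (realQ N)`. -/
theorem finTorsion_of_modFun (N : ℕ) [NeZero N] (hM : ModFunStmt (realQ N)) (p : ℕ)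
    (hp : 0 < p) : Fermat.Agent.P5.Plan.FinTorsion N p :=
  fun k => finite_setOf_nsmul_eq_zero N hM (pow_pos hp k)

end Fermat.Agent.P5.Kappa
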