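/-
P5 — block [KAPPA] (helper72): the UNCONDITIONAL finiteness statements, now that [MODFUN] is a
theorem (helper50 / helper91, `P5/ModFun/RealCInf`).

* `finTorsion`, `finTorsion_prime`  : the top-level contract `Plan.FinTorsion N p` ([FIN]);
* `finite_torsion_realQ'`           : `J₀(N)[n]` is finite;
* `finite_torsion_realC'`           : `Pic⁰(K_C / ℂ)[n]` is finite (the external input of [DESC]);
* `existsUnique_kummerRel_realC`, `KummerRel.eq_zero_realQ`, `KummerRel.eq_zero_realC`.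
-/
import Fermat.Agent.P5.Kappa.FinTorsion
import Fermat.Agent.P5.ModFun.RealCInf

set_option autoImplicit false

namespace Fermat.Agent.P5.Kappa

open UpperHalfPlane AlgebraicCurve ModularCurve CongruenceSubgroup
open Fermat.Agent.S24
open scoped MatrixGroups

/-- The `n`-torsion of `J₀(N)` is finite. -/
theorem finite_torsion_realQ' (N : ℕ) [NeZero N] {n : ℕ} (hn : 0 < n) :
    Finite ↥(Pic0.torsion Kbar (FN N) n) :=
  finite_torsion_realQ N (Fermat.Agent.P5.ModFun.RealC.modFunStmt_realQ N) hn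

/-- The set of points of `J₀(N)` killed by `n > 0` is finite. -/
theorem finite_setOf_nsmul_eq_zero' (N : ℕ) [NeZero N] {n : ℕ} (hn : 0 < n) :
    {x : JZero N | n • x = 0}.Finite :=
  finite_setOf_nsmul_eq_zero N (Fermat.Agent.P5.ModFun.RealC.modFunStmt_realQ N) hn

/-- **[FIN]**, unconditional: `Plan.FinTorsion N p`. -/
theorem finTorsion (N : ℕ) [NeZero N] (p : ℕ) (hp : 0 < p) :
    Fermat.Agent.P5.Plan.FinTorsion N p :=
  finTorsion_of_modFun N (Fermat.Agent.P5.ModFun.RealC.modFunStmt_realQ N) p hp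

/-- **[FIN]** in the exact shape of the hypothesis `hfin` of `Plan.s30Stmt_of_blocks`. -/
theorem finTorsion_prime (N : ℕ) [NeZero N] (p : ℕ) (hp : p.Prime) :
    Fermat.Agent.P5.Plan.FinTorsion N p :=
  finTorsion N p hp.pos

/-- The `n`-torsion of `Pic⁰(K_C / ℂ)`, `K_C` the function field of `X₀(N)` over `ℂ`, is finite
(the external input of block [DESC]). -/
theorem finite_torsion_realC' (N : ℕ) [NeZero N] {n : ℕ} (hn : 0 < n) :
    Finite ↥(Pic0.torsion ℂ ↥(laurentBaseChange ℂ (modularFunctionFieldFull N)) n) :=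
  finite_torsion_gamma0 (Fermat.Agent.P5.ModFun.RealC.modFunStmt_realC N) hn

/-- Every class of `Pic⁰(K_C / ℂ)` killed by `n` has a Kummer character. -/
theorem exists_kummerRel_realC (N : ℕ) [NeZero N] {n : ℕ} (hn : 0 < n)
    (x : Pic0 ℂ ↥(laurentBaseChange ℂ (modularFunctionFieldFull N))) (hx : n • x = 0) :
    ∃ ψ : ↥(Gamma0 N) →* ℂˣ, KummerRel (Fermat.Agent.P5.ModFun.realC N) n x ψ :=
  exists_kummerRel' (Fermat.Agent.P5.ModFun.realC N) hn x hx

/-- **(K5)** over `Q̄`, unconditional: a torsion point of `J₀(N)` with trivial Kummer character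
is zero. -/
theorem KummerRel.eq_zero_realQ {N : ℕ} [NeZero N] {n : ℕ} (hn : 0 < n) {x : JZero N}
    (h : KummerRel (realQ N) n x 1) : x = 0 :=
  h.eq_zero (Fermat.Agent.P5.ModFun.RealC.modFunStmt_realQ N) hn

/-- **(K5)** over `ℂ`, unconditional. -/
theorem KummerRel.eq_zero_realC {N : ℕ} [NeZero N] {n : ℕ} (hn : 0 < n)
    {x : Pic0 ℂ ↥(laurentBaseChange ℂ (modularFunctionFieldFull N))}
    (h : KummerRel (Fermat.Agent.P5.ModFun.realC N) n x 1) : x = 0 :=
  h.eq_zero (Fermat.Agent.P5.ModFun.RealC.modFunStmt_realC N) hn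

end Fermat.Agent.P5.Kappa
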