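/-
P5 — block [KAPPA] (helper72): dictionary between the [KAPPA] vocabulary (`Mer`, `constMer`,
`compMer`, `embMer`) and the [HECKE-κ] ambient vocabulary of helper69 (`MerH`, `cstM`, `pre`,
`E`).  Both live in the same field `FractionRing Hol`.
-/
import Fermat.Agent.P5.Kappa.Plan
import Fermat.Agent.P5.HeckeKappa.Ambient

set_option autoImplicit false

noncomputable section

namespace Fermat.Agent.P5.Kappa

open UpperHalfPlane AlgebraicCurve ModularCurve CongruenceSubgroup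
open Fermat.Agent.S24 Fermat.Agent.Lib.HolVal Fermat.Agent.P5.HeckeKappa
open scoped MatrixGroups Manifold

theorem constHol_eq_cstHol : constHol = cstHol := rfl

theorem constMer_eq_cstM : constMer = cstM := rfl

theorem compHom_eq_preHol (γ : SL(2, ℤ)) (f : Hol) : compHom γ f = preHol (slp γ) f := rfl

/-- `compMer γ` is `pre` of the image of `γ` in `GL₂(ℝ)⁺`. -/
theorem compMer_eq_pre (γ : SL(2, ℤ)) (m : Mer) : compMer γ m = pre (slp γ) m := by
  have h : compMer γ = (pre (slp γ)).toRingHom := by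
    apply merH_hom_ext
    intro f
    show compMer γ (algebraMap Hol Mer f) = pre (slp γ) (algebraMap Hol MerH f)
    rw [compMer_algebraMap, pre_algebraMap, compHom_eq_preHol]
  exact congrArg (fun φ : Mer →+* Mer => φ m) h

theorem rnToHol_eq_inclR (N : ℕ) [NeZero N] : rnToHol N = inclR N := rfl

theorem mnToMer_eq_inclMN (N : ℕ) [NeZero N] : mnToMer N = inclMN N := rfl

/-- The two realisations of `F_N` on `ℍ` coincide. -/
theorem embMer_eq_E (N : ℕ) [NeZero N] : embMer N = E N := rfl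

theorem realQ_emb (N : ℕ) [NeZero N] : (realQ N).emb = E N := rfl

theorem realQ_iota (N : ℕ) [NeZero N] : (realQ N).iota = Basic.iota := rfl

/-- The `char` clause of a Kummer datum in the [HECKE-κ] vocabulary. -/
theorem char_iff_pre {Γ : Subgroup SL(2, ℤ)} (G : Mer) (ψ : ↥Γ →* ℂˣ) :
    (∀ γ : ↥Γ, compMer (γ : SL(2, ℤ)) G = constMer ((ψ γ : ℂˣ) : ℂ) * G) ↔
      ∀ γ : ↥Γ, pre (slp (γ : SL(2, ℤ))) G = cstM ((ψ γ : ℂˣ) : ℂ) * G := by
  constructor
  · intro h γ
    rw [← compMer_eq_pre]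
    exact h γ
  · intro h γ
    rw [compMer_eq_pre]
    exact h γ

/-- A Kummer datum for `F_N / Q̄` from its description in the [HECKE-κ] vocabulary. -/
theorem isKummerDatum_realQ_of_pre (N : ℕ) [NeZero N] {n : ℕ} {D : Divisor Kbar (FN N)}
    {f : FN N} {G : MerH} {ψ : ↥(Gamma0 N) →* ℂˣ} (hf : f ≠ 0)
    (hdiv : ∀ v : Place Kbar (FN N), (n : ℤ) * D v = v.ord f) (hroot : G ^ n = E N f)
    (hchar : ∀ γ : ↥(Gamma0 N), pre (slp (γ : SL(2, ℤ))) G = cstM ((ψ γ : ℂˣ) : ℂ) * G) :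
    IsKummerDatum (realQ N) n D f G ψ :=
  ⟨hf, hdiv, hroot, (char_iff_pre G ψ).mpr hchar⟩

/-- The data of a Kummer datum for `F_N / Q̄`, in the [HECKE-κ] vocabulary. -/
theorem IsKummerDatum.pre_char {N : ℕ} [NeZero N] {n : ℕ} {D : Divisor Kbar (FN N)}
    {f : FN N} {G : Mer} {ψ : ↥(Gamma0 N) →* ℂˣ} (h : IsKummerDatum (realQ N) n D f G ψ)
    (γ : ↥(Gamma0 N)) : pre (slp (γ : SL(2, ℤ))) G = cstM ((ψ γ : ℂˣ) : ℂ) * G :=
  (char_iff_pre G ψ).mp h.char γ

theorem IsKummerDatum.root_E {N : ℕ} [NeZero N] {n : ℕ} {D : Divisor Kbar (FN N)}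
    {f : FN N} {G : Mer} {ψ : ↥(Gamma0 N) →* ℂˣ} (h : IsKummerDatum (realQ N) n D f G ψ) :
    G ^ n = E N f := h.root

end Fermat.Agent.P5.Kappa
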