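/-
P5 — block [KAPPA] (helper72): the CONSTRUCTOR of the Kummer relation ("(K0)").

If `f ∈ F×` has all its orders divisible by `n` and an `n`-th root `G` in `Mer(ℍ)` with
`G ∘ γ = ψ γ · G` on `Γ`, then the class of the degree-zero divisor `div f / n` has Kummer
character `ψ`.  This is the last step of [SURJ].
-/
import Fermat.Agent.P5.Kappa.Root

set_option autoImplicit false

noncomputable section

namespace Fermat.Agent.P5.Kappa

open UpperHalfPlane AlgebraicCurve ModularCurve CongruenceSubgroup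
open Fermat.Agent.S24 Fermat.Agent.Lib.HolVal
open scoped MatrixGroups Manifold

section generic

variable {K F : Type*} [Field K] [Field F] [Algebra K F] {Γ : Subgroup SL(2, ℤ)}

/-- If every order of `f ≠ 0` is divisible by `n > 0`, then `div f / n` is a divisor of degree
zero. -/
theorem exists_degZero_of_dvd_ord [HasPrincipalDivisors K F] {n : ℕ} (hn : 0 < n) {f : F}
    (hf : f ≠ 0) (hdiv : ∀ v : Place K F, (n : ℤ) ∣ v.ord f) :
    ∃ D : Divisor.degZero (K := K) (F := F),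
      ∀ v : Place K F, (n : ℤ) * (D : Divisor K F) v = v.ord f := by
  obtain ⟨E, hE, hdeg⟩ := HasPrincipalDivisors.exists_divisor (K := K) f hf
  let D : Divisor K F := E.mapRange (fun z => z / (n : ℤ)) (Int.zero_ediv _)
  have hD : ∀ v : Place K F, (n : ℤ) * D v = v.ord f := fun v => by
    have h1 : D v = E v / (n : ℤ) := rfl
    rw [h1, hE v]
    exact Int.mul_ediv_cancel' (hdiv v)
  have hnD : (n : ℤ) • D = E := Finsupp.ext fun v => by
    rw [Finsupp.smul_apply, smul_eq_mul, hD v, hE v]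
  have hdegD : Divisor.degree D = 0 := by
    have h2 := congrArg Divisor.degree hnD
    rw [map_zsmul, hdeg, smul_eq_mul] at h2
    rcases mul_eq_zero.mp h2 with h | h
    · exact absurd h (by exact_mod_cast hn.ne')
    · exact h
  exact ⟨⟨D, hdegD⟩, hD⟩

/-- **(K0)** The constructor of the Kummer relation: a function with divisor divisible by `n`
and an `n`-th root in `Mer(ℍ)` of character `ψ` gives a class with Kummer character `ψ`. -/
theorem exists_kummerRel_of_root [HasPrincipalDivisors K F] (R : Realisation K F Γ) {n : ℕ}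
    (hn : 0 < n) {f : F} (hf : f ≠ 0) (hdiv : ∀ v : Place K F, (n : ℤ) ∣ v.ord f) {G : Mer}
    (hG : G ^ n = R.emb f) {ψ : ↥Γ →* ℂˣ}
    (hψ : ∀ γ : ↥Γ, compMer (γ : SL(2, ℤ)) G = constMer ((ψ γ : ℂˣ) : ℂ) * G) :
    ∃ x : Pic0 K F, KummerRel R n x ψ := by
  obtain ⟨D, hD⟩ := exists_degZero_of_dvd_ord hn hf hdiv
  exact ⟨Pic0.mk D, D, f, G, rfl, ⟨hf, hD, hG, hψ⟩⟩

/-- Variant of **(K0)** with the explicit class. -/
theorem kummerRel_mk_of_root (R : Realisation K F Γ) {n : ℕ}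
    (D : Divisor.degZero (K := K) (F := F)) {f : F} (hf : f ≠ 0)
    (hdiv : ∀ v : Place K F, (n : ℤ) * (D : Divisor K F) v = v.ord f) {G : Mer}
    (hG : G ^ n = R.emb f) {ψ : ↥Γ →* ℂˣ}
    (hψ : ∀ γ : ↥Γ, compMer (γ : SL(2, ℤ)) G = constMer ((ψ γ : ℂˣ) : ℂ) * G) :
    KummerRel R n (Pic0.mk D) ψ :=
  ⟨D, f, G, rfl, ⟨hf, hdiv, hG, hψ⟩⟩

/-- A Kummer relation may be re-rooted: multiplying the function by an `n`-th power `h ^ n` and
the root by `R.emb h` does not change the class nor the character. (Only the statement for the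
root is needed by consumers: the class of `div (f * h ^ n) / n` is the class of `div f / n`.) -/
theorem exists_kummerRel_of_root_mul_pow [HasPrincipalDivisors K F] (R : Realisation K F Γ)
    {n : ℕ} (hn : 0 < n) {f h : F} (hf : f ≠ 0) (hh : h ≠ 0)
    (hdiv : ∀ v : Place K F, (n : ℤ) ∣ v.ord (f * h ^ n)) {G : Mer}
    (hG : G ^ n = R.emb (f * h ^ n)) {ψ : ↥Γ →* ℂˣ}
    (hψ : ∀ γ : ↥Γ, compMer (γ : SL(2, ℤ)) G = constMer ((ψ γ : ℂˣ) : ℂ) * G) :
    ∃ x : Pic0 K F, KummerRel R n x ψ :=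
  exists_kummerRel_of_root R hn (mul_ne_zero hf (pow_ne_zero n hh)) hdiv hG hψ

end generic

/-! ### The case of `F_N / Q̄` -/

/-- **(K0)** for `J₀(N)`: `f ∈ F_N×` with `n ∣ div f` and an `n`-th root `G` on `ℍ` of
character `ψ` on `Γ₀(N)` gives a point of `J₀(N)` with Kummer character `ψ`. -/
theorem exists_kummerRel_realQ_of_root (N : ℕ) [NeZero N] {n : ℕ} (hn : 0 < n) {f : FN N}
    (hf : f ≠ 0) (hdiv : ∀ v : Place Kbar (FN N), (n : ℤ) ∣ v.ord f) {G : Mer}
    (hG : G ^ n = embMer N f) {ψ : ↥(Gamma0 N) →* ℂˣ}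
    (hψ : ∀ γ : ↥(Gamma0 N), compMer (γ : SL(2, ℤ)) G = constMer ((ψ γ : ℂˣ) : ℂ) * G) :
    ∃ x : JZero N, KummerRel (realQ N) n x ψ := by
  have : HasPrincipalDivisors Kbar (FN N) := Fermat.Agent.S37.HeckeInputs.hasPrincipalDivisors_FN N
  exact exists_kummerRel_of_root (realQ N) hn hf hdiv hG hψ

end Fermat.Agent.P5.Kappa
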